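import Mathlib
import Fermat.Agent.MUL.S24.Assembly
import Fermat.Agent.MUL.S20.Gens

section MergeWrap_Lib_GoodRed_ModularBranch -- from Lib/GoodRed/ModularBranch.lean

set_option autoImplicit false
set_option linter.style.haveILetI false

/-!
# Cluster B / GoodRed, WP M (char-0 input): the branch data of `F_N / ℚ̄(j)`, from S24

`F = modularFunctionFieldBar N`, `j = jBar N`, `K = ℚ̄`, `n = [F : K(j)] = [SL₂(ℤ) : Γ₀(N)]`.
* `card_fibre_jBar_of_ne`: over `c ∉ {0, 1728}` there are exactly `n` places;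
* `card_fibre_jBar_zero`, `card_fibre_jBar_1728`, `card_poles_jBar`: the fibres over `0`, `1728`,
  `∞` are the orbits of `ST`, `S`, `T` on `SL₂(ℤ) / Γ₀(N)`;
* `finrank_jBar`: `[F : K(j)] = [SL₂(ℤ) : Γ₀(N)]`.
All in the "places" form `Nat.card {v : Place K F // 0 < v.ord (j - c)}`.
-/

noncomputable section

open KaehlerDifferential UpperHalfPlane IntermediateField AlgebraicCurve

namespace Fermat.Agent.GoodRedBranch

open scoped MatrixGroups
open Fermat.Agent.S24

/-- Fibre counts from a Galois datum, for an embedding `φ : F →ₐ[K] L`. -/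
theorem card_fibre_of_hom
    {K F L Γ : Type*} [Field K] [IsAlgClosed K] [CharZero K]
    [Field F] [Algebra K F] [Field L] [Algebra K L]
    [Group Γ] [MulSemiringAction Γ L] [SMulCommClass Γ K L]
    (φ : F →ₐ[K] L) (j : F) (jL : L) (hφj : φ j = jL)
    (htr : Transcendental K jL)
    (hfin : ∃ Γ' : Subgroup Γ, Γ'.FiniteIndex ∧ ∀ g ∈ Γ', ∀ x : L, g • x = x)
    (hj : ∀ g : Γ, g • jL = jL)
    (hfix : ∀ x : L, (∀ g : Γ, g • x = x) → x ∈ IntermediateField.adjoin K {jL})
    (H : Subgroup Γ)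
    (hH : ∀ g : Γ, g ∈ H ↔ ∀ x : F, g • φ x = φ x) :
    Module.finrank K⟮j⟯ F = H.index ∧
    (∀ (c : K) (w : Valuation L (WithZero (Multiplicative ℤ))) (s : ℕ) (g : Γ),
      (∀ a : K, a ≠ 0 → w (algebraMap K L a) = 1) → 0 < s →
      w (jL - algebraMap K L c) = WithZero.exp (-(s : ℤ)) →
      (∀ x, w (g • x) = w x) →
      (∀ k : ℤ, (∀ x : L, (g ^ k) • x = x) ↔ (s : ℤ) ∣ k) →
      Nat.card {v : Place K F // 0 < v.ord (j - algebraMap K F c)} = orbCount H g ∧
      (s = 1 → orbCount H g = H.index)) ∧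
    (∀ (winf : Valuation L (WithZero (Multiplicative ℤ))) (sinf : ℕ) (ginf : Γ),
      (∀ a : K, a ≠ 0 → winf (algebraMap K L a) = 1) → 0 < sinf →
      winf jL = WithZero.exp (sinf : ℤ) →
      (∀ x, winf (ginf • x) = winf x) →
      (∀ k : ℤ, (∀ x : L, (ginf ^ k) • x = x) ↔ (sinf : ℤ) ∣ k) →
      Nat.card {v : Place K F // v.ord j < 0} = orbCount H ginf) := by
  letI : Algebra F L := φ.toRingHom.toAlgebra
  haveI : IsScalarTower K F L := IsScalarTower.of_algebraMap_eq (fun a => (φ.commutes a).symm)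
  have hmap : ∀ x : F, algebraMap F L x = φ x := fun _ => rfl
  have hjtr : Transcendental K j := by
    intro h
    apply htr
    rw [← hφj]
    exact IsAlgebraic.algHom φ h
  have hj' : ∀ g : Γ, g • algebraMap F L j = algebraMap F L j := by
    rw [hmap, hφj]; exact hj
  have hfix' : ∀ x : L, (∀ g : Γ, g • x = x) →
      x ∈ IntermediateField.adjoin K {algebraMap F L j} := by
    rw [hmap, hφj]; exact hfix
  obtain ⟨hfd, hrank⟩ := Fermat.Agent.S24Gal.finrank_eq_index j hfin hj' hfix' H hH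
  refine ⟨hrank, ?_, ?_⟩
  · intro c w s g hwK hs hw hg hgs
    refine ⟨?_, ?_⟩
    · refine Fermat.Agent.S24Fib.card_zeroPlaces (j - algebraMap K F c)
        (Fermat.Agent.S24Glue.transcendental_sub_const hjtr c) hfin
        (Fermat.Agent.S24Glue.smul_algebraMap_sub hj' c) ?_ H hH w s g hwK hs ?_ hg hgs
      · intro x hx
        have := hfix' x hx
        rw [map_sub, ← IsScalarTower.algebraMap_apply K F L,
          Fermat.Agent.S24Glue.adjoin_sub_const_eq]
        exact this
      · rw [map_sub, hmap, hφj, ← IsScalarTower.algebraMap_apply]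
        exact hw
    · intro hs1
      refine Fermat.Agent.S24Glue.orbCount_eq_index_of_trivial H hH g fun x => ?_
      have h1 := (hgs 1).mpr (by rw [hs1]; simp)
      simpa using h1 x
  · intro winf sinf ginf hwinfK hsinf hwinf hginf hgsinf
    have hcard : Nat.card {v : Place K F // 0 < v.ord j⁻¹} = orbCount H ginf := by
      refine Fermat.Agent.S24Fib.card_zeroPlaces j⁻¹
        (Fermat.Agent.S24Glue.transcendental_inv' hjtr) hfin
        (Fermat.Agent.S24Glue.smul_algebraMap_inv hj') ?_ H hH winf sinf ginf hwinfK hsinf ?_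
        hginf hgsinf
      · intro x hx
        have := hfix' x hx
        rw [map_inv₀, Fermat.Agent.S24Glue.adjoin_inv_eq']
        exact this
      · rw [map_inv₀, map_inv₀, hmap, hφj, hwinf, ← WithZero.exp_neg]
    rw [← hcard]
    refine Nat.card_congr (Equiv.subtypeEquivRight fun v => ?_)
    rw [Place.ord_inv]
    omega


section Modular

set_option synthInstance.maxHeartbeats 400000
set_option maxHeartbeats 2000000

variable (N : ℕ) [NeZero N]

/-- the package of fibre counts for `F_N / ℚ̄(j)`. -/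
theorem fibre_package :
    Module.finrank Kbar⟮jBar N⟯ ↥(ModularCurve.modularFunctionFieldBar N)
      = (CongruenceSubgroup.Gamma0 N).index ∧
    (∀ c : Kbar, c ≠ 0 → c ≠ 1728 →
      Nat.card {v : Place Kbar ↥(ModularCurve.modularFunctionFieldBar N) //
        0 < v.ord (jBar N - algebraMap Kbar _ c)} = (CongruenceSubgroup.Gamma0 N).index) ∧
    Nat.card {v : Place Kbar ↥(ModularCurve.modularFunctionFieldBar N) //
        0 < v.ord (jBar N - algebraMap Kbar _ 0)}
      = orbCount (CongruenceSubgroup.Gamma0 N) (ModularGroup.S * ModularGroup.T) ∧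
    Nat.card {v : Place Kbar ↥(ModularCurve.modularFunctionFieldBar N) //
        0 < v.ord (jBar N - algebraMap Kbar _ 1728)}
      = orbCount (CongruenceSubgroup.Gamma0 N) ModularGroup.S ∧
    Nat.card {v : Place Kbar ↥(ModularCurve.modularFunctionFieldBar N) // v.ord (jBar N) < 0}
      = orbCount (CongruenceSubgroup.Gamma0 N) ModularGroup.T := by
  haveI : NeZero (2 * N) := ⟨Nat.mul_ne_zero two_ne_zero (NeZero.ne N)⟩
  have h2 : 2 ≤ 2 * N := by
    have := Nat.pos_of_ne_zero (NeZero.ne N)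
    omega
  have h2N : 0 < 2 * N := by omega
  obtain ⟨φ, hφj, hφH⟩ := exists_embF N
  obtain ⟨hrank, hfib, hinf⟩ := card_fibre_of_hom (K := Kbar) (L := LL (2 * N)) (Γ := SL(2, ℤ))
    φ (jBar N) (jLL (2 * N)) hφj (transcendental_jLL (2 * N))
    (exists_finiteIndex_fixing (2 * N)) (smul_jLL (2 * N))
    (Fermat.Agent.S24Inv.mem_adjoin_jLL_of_invariant' (2 * N))
    (CongruenceSubgroup.Gamma0 N) (fun γ => hφH γ)
  refine ⟨hrank, ?_, ?_, ?_, ?_⟩
  · intro c hc0 hc
    obtain ⟨w, s, g, hwK, hs, hw, hg, hgs, -, -, hs1⟩ := exists_local_datum (2 * N) h2 c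
    obtain ⟨h1, h2'⟩ := hfib c w s g hwK hs hw hg hgs
    rw [h1, h2' (hs1 hc0 hc)]
  · obtain ⟨w, s, g, hwK, hs, hw, hg, hgs, -, hg0, -⟩ := exists_local_datum (2 * N) h2 0
    obtain ⟨h1, -⟩ := hfib 0 w s g hwK hs hw hg hgs
    rw [h1, hg0 rfl]
  · obtain ⟨w, s, g, hwK, hs, hw, hg, hgs, hg1728, -, -⟩ := exists_local_datum (2 * N) h2 1728
    obtain ⟨h1, -⟩ := hfib 1728 w s g hwK hs hw hg hgs
    rw [h1, hg1728 rfl]
  · obtain ⟨winf, hwinfK, hwinf, hginf⟩ := exists_valuation_inf' (2 * N)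
    exact hinf winf (2 * N) ModularGroup.T hwinfK h2N hwinf hginf (T_zpow_smul_eq_iff (2 * N))

/-- `[F_N : ℚ̄(j)] = [SL₂(ℤ) : Γ₀(N)]`. -/
theorem finrank_jBar :
    Module.finrank Kbar⟮jBar N⟯ ↥(ModularCurve.modularFunctionFieldBar N)
      = (CongruenceSubgroup.Gamma0 N).index :=
  (fibre_package N).1

/-- **unramified fibres**: over `c ∉ {0, 1728}` there are exactly `[F_N : ℚ̄(j)]` places. -/
theorem card_fibre_jBar_of_ne {c : Kbar} (hc0 : c ≠ 0) (hc : c ≠ 1728) :
    Nat.card {v : Place Kbar ↥(ModularCurve.modularFunctionFieldBar N) //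
        0 < v.ord (jBar N - algebraMap Kbar _ c)}
      = Module.finrank Kbar⟮jBar N⟯ ↥(ModularCurve.modularFunctionFieldBar N) := by
  rw [finrank_jBar]
  exact (fibre_package N).2.1 c hc0 hc

theorem card_fibre_jBar_zero :
    Nat.card {v : Place Kbar ↥(ModularCurve.modularFunctionFieldBar N) //
        0 < v.ord (jBar N - algebraMap Kbar _ 0)}
      = orbCount (CongruenceSubgroup.Gamma0 N) (ModularGroup.S * ModularGroup.T) :=
  (fibre_package N).2.2.1

theorem card_fibre_jBar_1728 :
    Nat.card {v : Place Kbar ↥(ModularCurve.modularFunctionFieldBar N) //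
        0 < v.ord (jBar N - algebraMap Kbar _ 1728)}
      = orbCount (CongruenceSubgroup.Gamma0 N) ModularGroup.S :=
  (fibre_package N).2.2.2.1

theorem card_poles_jBar :
    Nat.card {v : Place Kbar ↥(ModularCurve.modularFunctionFieldBar N) // v.ord (jBar N) < 0}
      = orbCount (CongruenceSubgroup.Gamma0 N) ModularGroup.T :=
  (fibre_package N).2.2.2.2

/-- every place over `c ∉ {0, 1728}` is unramified: `ord_v (j - c) = 1`. -/
theorem ord_jBar_sub_eq_one {c : Kbar} (hc0 : c ≠ 0) (hc : c ≠ 1728)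
    (v : Place Kbar ↥(ModularCurve.modularFunctionFieldBar N))
    (hv : 0 < v.ord (jBar N - algebraMap Kbar _ c)) :
    v.ord (jBar N - algebraMap Kbar _ c) = 1 := by
  classical
  have h := isFunctionFieldOver_jBar N
  have hfin := Fermat.Agent.S24Fund.finite_zeros h h.transcendental c
  have hsum := Fermat.Agent.S24Fund.sum_ord_zeros h h.transcendental c
  have hcard := card_fibre_jBar_of_ne N hc0 hc
  have hcard' : (hfin.toFinset.card : ℤ) =
      Module.finrank Kbar⟮jBar N⟯ ↥(ModularCurve.modularFunctionFieldBar N) := by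
    rw [← hcard, ← Set.ncard_eq_toFinset_card _ hfin, ← Nat.card_coe_set_eq]
    rfl
  refine Fermat.Agent.S24Diff.eq_one_of_sum_eq_card hfin.toFinset _ (fun w hw => ?_)
    (hsum.trans hcard'.symm) v ?_
  · rw [Set.Finite.mem_toFinset] at hw
    exact hw
  · rw [Set.Finite.mem_toFinset]
    exact hv

end Modular

end Fermat.Agent.GoodRedBranch
end
end MergeWrap_Lib_GoodRed_ModularBranch
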