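import Mathlib
import Fermat.Agent.MUL.Lib.GoodRed.ModularGenus
import Fermat.Agent.MUL.Lib.BadRed.Nodal.Deuring2.RRExist

section MergeWrap_Lib_GoodRed_ModularFibres -- from Lib/GoodRed/ModularFibres.lean

set_option autoImplicit false
set_option linter.unusedSectionVars false
set_option linter.style.haveILetI false

noncomputable section

namespace Fermat.Agent.GoodRed

open ModularCurve Fermat.Agent.GaussInt IntermediateField AlgebraicCurve
open scoped IntermediateField.algebraAdjoinAdjoin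

set_option synthInstance.maxHeartbeats 400000
set_option maxHeartbeats 1000000

variable (N : ℕ) [NeZero N] {ℓ : ℕ} (hℓ : ℓ.Prime)
  {A : ValuationSubring (AlgebraicClosure ℚ)} (hA : A.LiesOverPrime ℓ) (hR : RangeAt N A)

/-- (FIB=) for the modular curve, finite chart. -/
theorem modular_fibreEq (hℓN : ¬ ℓ ∣ N) (h2 : ℓ ≠ 2) (h3 : ℓ ≠ 3) :
    FibreEq (modularRedModel N hℓ hA hR) (CongruenceSubgroup.Gamma0 N).index
      (modularBranchData N hℓ hA hR h2 h3).toA := by
  haveI := isAlgClosed_residue A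
  exact fibreEq_of_branchData _ _ (modularDegData N hℓ hA hR hℓN) _

/-- (FIB=) for the modular curve, chart at infinity. -/
theorem modular_fibreEq_inv (hℓN : ¬ ℓ ∣ N) (h2 : ℓ ≠ 2) (h3 : ℓ ≠ 3) :
    FibreEq (modularRedModel N hℓ hA hR).inv (CongruenceSubgroup.Gamma0 N).index
      ((modularBranchData N hℓ hA hR h2 h3).inv
        (inv_mem_of_mem_branchSet N hℓ hA hR h2 h3)).toA := by
  haveI := isAlgClosed_residue A
  exact fibreEq_of_branchData _ _ (modularDegData N hℓ hA hR hℓN).inv _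

/-- the fibre of `j̄` over the residue of `c ∈ A` has as many points as the fibre of `j` over
`c`, if `c` is a branch value or its residue is not the residue of a branch value. -/
theorem fibreCard_xbar_eq {ℓ : ℕ} (hℓ : ℓ.Prime)
    {A : ValuationSubring (AlgebraicClosure ℚ)} (hA : A.LiesOverPrime ℓ)
    (hℓN : ¬ ℓ ∣ N) (h2 : ℓ ≠ 2) (h3 : ℓ ≠ 3)
    (c : AlgebraicClosure ℚ) (hc : c ∈ A)
    (h : c ∈ branchSet ∨ ∀ c' ∈ branchSet, ∀ hc' : c' ∈ A,
      IsLocalRing.residue A ⟨c', hc'⟩ ≠ IsLocalRing.residue A ⟨c, hc⟩) :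
    fibreCard (IsLocalRing.ResidueField A) (Fermat.Agent.RRMod.jC (IsLocalRing.ResidueField A) N)
        (IsLocalRing.residue A ⟨c, hc⟩) =
      fibreCard (AlgebraicClosure ℚ) (Fermat.Agent.S24.jBar N) c := by
  have hR := rangeAt N hℓ hA hℓN
  have key := modular_fibreEq N hℓ hA hR hℓN h2 h3 c hc h
  rw [modularRedModel_xbar] at key
  exact key

/-- the same in terms of places. -/
theorem card_fibre_jC_eq {ℓ : ℕ} (hℓ : ℓ.Prime)
    {A : ValuationSubring (AlgebraicClosure ℚ)} (hA : A.LiesOverPrime ℓ)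
    (hℓN : ¬ ℓ ∣ N) (h2 : ℓ ≠ 2) (h3 : ℓ ≠ 3)
    (c : AlgebraicClosure ℚ) (hc : c ∈ A)
    (h : c ∈ branchSet ∨ ∀ c' ∈ branchSet, ∀ hc' : c' ∈ A,
      IsLocalRing.residue A ⟨c', hc'⟩ ≠ IsLocalRing.residue A ⟨c, hc⟩) :
    Nat.card {v : Place (IsLocalRing.ResidueField A)
        ↥(modularFunctionFieldFullC (IsLocalRing.ResidueField A) N) //
        0 < v.ord (Fermat.Agent.RRMod.jC (IsLocalRing.ResidueField A) N -
          algebraMap (IsLocalRing.ResidueField A) _ (IsLocalRing.residue A ⟨c, hc⟩))} =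
      Nat.card {v : Place (AlgebraicClosure ℚ) ↥(modularFunctionFieldBar N) //
        0 < v.ord (Fermat.Agent.S24.jBar N - algebraMap (AlgebraicClosure ℚ) _ c)} := by
  haveI := isAlgClosed_residue A
  haveI := Fermat.Agent.RRMod.finiteDimensional_fullC' (IsLocalRing.ResidueField A) N
  haveI := Fermat.Agent.RRMod.isSeparable_fullC' (IsLocalRing.ResidueField A) N
  have hff := Fermat.Agent.S24.isFunctionFieldOver_jBar N
  haveI := hff.finite
  haveI := isSeparable_jBar N
  rw [← fibreCard_eq_card_zeros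
      (Fermat.Agent.RRMod.transcendental_jC (IsLocalRing.ResidueField A) N),
    ← fibreCard_eq_card_zeros hff.transcendental]
  exact fibreCard_xbar_eq N hℓ hA hℓN h2 h3 c hc h

section Residues

variable {ℓ : ℕ} (hℓ : ℓ.Prime) {A : ValuationSubring (AlgebraicClosure ℚ)}
  (hA : A.LiesOverPrime ℓ)

theorem residue_mk_zero (h : (0 : AlgebraicClosure ℚ) ∈ A) :
    IsLocalRing.residue A ⟨0, h⟩ = 0 := by
  have e0 : (⟨(0 : AlgebraicClosure ℚ), h⟩ : A) = 0 := rfl
  rw [e0, map_zero]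

theorem residue_mk_1728 (h : (1728 : AlgebraicClosure ℚ) ∈ A) :
    IsLocalRing.residue A ⟨1728, h⟩ = (1728 : IsLocalRing.ResidueField A) := by
  have e : (⟨(1728 : AlgebraicClosure ℚ), h⟩ : A) = ((1728 : ℕ) : A) := by
    apply Subtype.ext
    show (1728 : AlgebraicClosure ℚ) = ((1728 : ℕ) : AlgebraicClosure ℚ)
    norm_num
  rw [e, map_natCast]
  norm_num

theorem mem_1728 (A : ValuationSubring (AlgebraicClosure ℚ)) :
    (1728 : AlgebraicClosure ℚ) ∈ A := by
  have h := (((1728 : ℕ) : A)).2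
  have e : ((((1728 : ℕ) : A)) : AlgebraicClosure ℚ) = 1728 := by
    show ((1728 : ℕ) : AlgebraicClosure ℚ) = 1728
    norm_num
  rw [e] at h
  exact h

theorem residue_1728_ne_zero {ℓ : ℕ} (hℓ : ℓ.Prime)
    {A : ValuationSubring (AlgebraicClosure ℚ)} (hA : A.LiesOverPrime ℓ)
    (h2 : ℓ ≠ 2) (h3 : ℓ ≠ 3) :
    (1728 : IsLocalRing.ResidueField A) ≠ 0 := by
  have hu := isUnit_1728 hℓ hA h2 h3
  have hne : IsLocalRing.residue A ((1728 : ℕ) : A) ≠ 0 := by
    rw [Ne, IsLocalRing.residue_eq_zero_iff, IsLocalRing.mem_maximalIdeal, mem_nonunits_iff,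
      not_not]
    exact hu
  rw [map_natCast] at hne
  intro h0
  apply hne
  rw [← h0]
  norm_num

end Residues

open Fermat.Agent.S24 in
/-- **fibre over `0` in characteristic `ℓ`**: the number of places of `F_k` over `j̄ = 0` is the
number of orbits of `ST` on `SL₂(ℤ) / Γ₀(N)`. -/
theorem card_fibre_jC_zero {ℓ : ℕ} (hℓ : ℓ.Prime)
    {A : ValuationSubring (AlgebraicClosure ℚ)} (hA : A.LiesOverPrime ℓ)
    (hℓN : ¬ ℓ ∣ N) (h2 : ℓ ≠ 2) (h3 : ℓ ≠ 3) :
    Nat.card {v : Place (IsLocalRing.ResidueField A)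
        ↥(modularFunctionFieldFullC (IsLocalRing.ResidueField A) N) //
        0 < v.ord (Fermat.Agent.RRMod.jC (IsLocalRing.ResidueField A) N -
          algebraMap (IsLocalRing.ResidueField A) _ 0)} =
      orbCount (CongruenceSubgroup.Gamma0 N) (ModularGroup.S * ModularGroup.T) := by
  have h := card_fibre_jC_eq N hℓ hA hℓN h2 h3 0 A.zero_mem (Or.inl (mem_branchSet.mpr (Or.inl rfl)))
  rw [residue_mk_zero] at h
  rw [h]
  exact Fermat.Agent.GoodRedBranch.card_fibre_jBar_zero N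

open Fermat.Agent.S24 in
/-- **fibre over `1728` in characteristic `ℓ`**. -/
theorem card_fibre_jC_1728 {ℓ : ℕ} (hℓ : ℓ.Prime)
    {A : ValuationSubring (AlgebraicClosure ℚ)} (hA : A.LiesOverPrime ℓ)
    (hℓN : ¬ ℓ ∣ N) (h2 : ℓ ≠ 2) (h3 : ℓ ≠ 3) :
    Nat.card {v : Place (IsLocalRing.ResidueField A)
        ↥(modularFunctionFieldFullC (IsLocalRing.ResidueField A) N) //
        0 < v.ord (Fermat.Agent.RRMod.jC (IsLocalRing.ResidueField A) N -
          algebraMap (IsLocalRing.ResidueField A) _ 1728)} =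
      orbCount (CongruenceSubgroup.Gamma0 N) ModularGroup.S := by
  have h := card_fibre_jC_eq N hℓ hA hℓN h2 h3 1728 (mem_1728 A)
    (Or.inl (mem_branchSet.mpr (Or.inr rfl)))
  rw [residue_mk_1728] at h
  rw [h]
  exact Fermat.Agent.GoodRedBranch.card_fibre_jBar_1728 N

/-- **unramified fibres in characteristic `ℓ`**: over `c̄ ∉ {0, 1728}` there are exactly
`[SL₂(ℤ) : Γ₀(N)]` places of `F_k`. -/
theorem card_fibre_jC_of_ne {ℓ : ℕ} (hℓ : ℓ.Prime)
    {A : ValuationSubring (AlgebraicClosure ℚ)} (hA : A.LiesOverPrime ℓ)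
    (hℓN : ¬ ℓ ∣ N) (h2 : ℓ ≠ 2) (h3 : ℓ ≠ 3)
    (cbar : IsLocalRing.ResidueField A) (hc0 : cbar ≠ 0) (hc : cbar ≠ 1728) :
    Nat.card {v : Place (IsLocalRing.ResidueField A)
        ↥(modularFunctionFieldFullC (IsLocalRing.ResidueField A) N) //
        0 < v.ord (Fermat.Agent.RRMod.jC (IsLocalRing.ResidueField A) N -
          algebraMap (IsLocalRing.ResidueField A) _ cbar)} =
      (CongruenceSubgroup.Gamma0 N).index := by
  obtain ⟨c, rfl⟩ := IsLocalRing.residue_surjective cbar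
  have hcne0 : (c : AlgebraicClosure ℚ) ≠ 0 := by
    intro h0
    apply hc0
    have : c = 0 := Subtype.ext h0
    rw [this, map_zero]
  have hcne : (c : AlgebraicClosure ℚ) ≠ 1728 := by
    intro h0
    apply hc
    have : c = ⟨1728, mem_1728 A⟩ := Subtype.ext h0
    rw [this, residue_mk_1728]
  have h := card_fibre_jC_eq N hℓ hA hℓN h2 h3 (c : AlgebraicClosure ℚ) c.2 (Or.inr ?_)
  · rw [h, Fermat.Agent.GoodRedBranch.card_fibre_jBar_of_ne N hcne0 hcne,
      Fermat.Agent.GoodRedBranch.finrank_jBar]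
  · intro c' hc' hc'A
    rcases mem_branchSet.mp hc' with rfl | rfl
    · rw [residue_mk_zero]
      exact fun h => hc0 h.symm
    · rw [residue_mk_1728]
      exact fun h => hc h.symm

open Fermat.Agent.S24 in
/-- **fibre over `∞` in characteristic `ℓ`**: the number of poles of `j̄` (cusps of the
reduction) is the number of orbits of `T` on `SL₂(ℤ) / Γ₀(N)` (the number of cusps of
`X₀(N)`). -/
theorem card_poles_jC {ℓ : ℕ} (hℓ : ℓ.Prime)
    {A : ValuationSubring (AlgebraicClosure ℚ)} (hA : A.LiesOverPrime ℓ)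
    (hℓN : ¬ ℓ ∣ N) (h2 : ℓ ≠ 2) (h3 : ℓ ≠ 3) :
    Nat.card {v : Place (IsLocalRing.ResidueField A)
        ↥(modularFunctionFieldFullC (IsLocalRing.ResidueField A) N) //
        v.ord (Fermat.Agent.RRMod.jC (IsLocalRing.ResidueField A) N) < 0} =
      orbCount (CongruenceSubgroup.Gamma0 N) ModularGroup.T := by
  haveI := isAlgClosed_residue A
  haveI := Fermat.Agent.RRMod.finiteDimensional_fullC' (IsLocalRing.ResidueField A) N
  haveI := Fermat.Agent.RRMod.isSeparable_fullC' (IsLocalRing.ResidueField A) N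
  have hff := Fermat.Agent.S24.isFunctionFieldOver_jBar N
  haveI := hff.finite
  haveI := isSeparable_jBar N
  have hR := rangeAt N hℓ hA hℓN
  have key := modular_fibreEq_inv N hℓ hA hR hℓN h2 h3 0 A.zero_mem
    (Or.inl (BranchData.zero_mem_inv_S (modularBranchData N hℓ hA hR h2 h3)
      (inv_mem_of_mem_branchSet N hℓ hA hR h2 h3)))
  rw [RedModel.inv_xbar, modularRedModel_xbar] at key
  have e0 : (modularRedModel N hℓ hA hR).inv.res ⟨0, A.zero_mem⟩ = 0 := residue_mk_zero _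
  rw [e0] at key
  rw [← fibreCard_inv_eq_card_poles
      (Fermat.Agent.RRMod.transcendental_jC (IsLocalRing.ResidueField A) N), key]
  show fibreCard (AlgebraicClosure ℚ) (Fermat.Agent.S24.jBar N)⁻¹ 0 = _
  rw [fibreCard_inv_eq_card_poles hff.transcendental]
  exact Fermat.Agent.GoodRedBranch.card_poles_jBar N

end Fermat.Agent.GoodRed
end
end MergeWrap_Lib_GoodRed_ModularFibres
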